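import Mathlib
import Fermat.Agent.InertiaMult.RelQbar
import Fermat.Agent.ES.EC.TorsionLift20
import Fermat.Prelude.Def_EllipticCurve_ZeroComponentAt
import Fermat.Prelude.Def_FLTPrelim_Ramification

/-!
# MAZ (S15), brick F-LOC (row 709): the local criterion for the zero component  (helper44)

`W` an integral Weierstrass curve, `A` a valuation subring of a field `L`, `Q` a point of `W(L)` of odd
prime order `p` with `p ∈ Aˣ`.  With `ψ₂(P) = 2y + a₁x + a₃`:

* `Q ∈ E⁰` at `A` (`InZero`, the general-field form of the Prelude's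
  `WeierstrassCurve.InZeroComponentAt`; `inZeroComponentAt_iff` is `Iff.rfl`)
  `⟹` every multiple `kQ ≠ 0` has nonsingular reduction (`InertiaMult.redTo_nsmul`) and
  `v(ψ₂(kQ)) = 1` (`InertiaMult.val_two_y_eq_one`);
* `Q ∉ E⁰` `⟹` no `kQ ≠ 0` is in `E⁰`, the coordinates of `kQ` are integral, the reduction is singular,
  so `ψ₂(kQ) = ∂F/∂y` lies in the maximal ideal: `v(ψ₂(kQ)) < 1`.

Hence (`psiProd p Q = ∏_{k=1}^{p-1} ψ₂(kQ)`, `UU W p Q = p¹² (psiProd p Q)⁴ / Δ^{p-1}`):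

* `inZero_iff_val_psiProd` : `Q ∈ E⁰ ⟺ v(psiProd p Q) = 1`;
* `inZero_iff_val_UU` : `Q ∈ E⁰ ⟺ v(U) · v(Δ)^{p-1} = 1`; `inZero_iff_val_UU_eq_inv`,
  `inZero_iff_val_UU_eq_j` (`v(U) = v(j)^{p-1}` when `v(c₄) = 1`);
* the `ℚ̄`-forms for `W.InZeroComponentAt A Q`, `A` over `ℓ ≠ p`, `addOrderOf Q = p`:
  `inZeroComponentAt_iff_val_psiProd`, `inZeroComponentAt_iff_val_UU`, `inZeroComponentAt_iff_val_UU_eq_j`.

No hypothesis on the reduction type is needed for the equivalences (`ℓ ∣ Δ`, `ℓ ∤ c₄` only enter the `j`-form).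
-/

set_option autoImplicit false
set_option linter.unusedSectionVars false

open WeierstrassCurve WeierstrassCurve.Affine

namespace Fermat.Agent.MAZ.Loc44

open Fermat.Agent.InertiaMult Fermat.Agent.S05.Inertia Fermat.Agent.S05.Kernel
open Fermat.Agent.ES.EC.CongE1_20 Fermat.Agent.ES.EC

/-- `ψ₂(P) = 2y + a₁x + a₃` (and `1` at the origin). -/
def psi2 {F : Type*} [CommRing F] {V : Affine F} : V.Point → F
  | .zero => 1
  | .some x y _ => 2 * y + V.a₁ * x + V.a₃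

@[simp] theorem psi2_zero {F : Type*} [CommRing F] {V : Affine F} :
    psi2 (0 : V.Point) = 1 := rfl

@[simp] theorem psi2_some {F : Type*} [CommRing F] {V : Affine F} {x y : F}
    (h : V.Nonsingular x y) : psi2 (Point.some x y h) = 2 * y + V.a₁ * x + V.a₃ := rfl

section General

variable {L : Type*} [Field L] (W : WeierstrassCurve ℤ) (A : ValuationSubring L)

/-- `R` lies in the zero component at `A`: general-field form of the Prelude's
`WeierstrassCurve.InZeroComponentAt`. -/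
def InZero {VL : Affine L} (R : VL.Point) : Prop :=
  R = 0 ∨ ∃ (x y : L) (h : VL.Nonsingular x y), R = .some x y h ∧
    (x ∉ A ∨ ∃ (hx : x ∈ A) (hy : y ∈ A),
      (W.map (Int.castRingHom (IsLocalRing.ResidueField A))).toAffine.Nonsingular
        (IsLocalRing.residue A ⟨x, hx⟩) (IsLocalRing.residue A ⟨y, hy⟩))

variable {A}

theorem inZero_zero {VL : Affine L} : InZero W A (0 : VL.Point) := Or.inl rfl

variable [DecidableEq L] [DecidableEq (IsLocalRing.ResidueField A)]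

/-- On torsion prime to the residue characteristic, `E⁰` is the domain of the reduction relation. -/
theorem inZero_iff_exists_redTo {m : ℕ} (hvm : A.valuation ((m : ℕ) : L) = 1)
    {VL : Affine L} (hVL : VL = (W.map (Int.castRingHom L)).toAffine) {R : VL.Point}
    (hR : m • R = 0) :
    InZero W A R ↔
      ∃ S : (W.map (Int.castRingHom (IsLocalRing.ResidueField A))).toAffine.Point, RedTo A R S := by
  subst hVL
  have hint : IntegralCoeffs A.valuation (W.map (Int.castRingHom L)).toAffine :=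
    integralCoeffs_map W
  constructor
  · rintro (rfl | ⟨x, y, h, rfl, hx | ⟨hx, hy, h'⟩⟩)
    · exact ⟨0, redTo_zero⟩
    · exfalso
      apply hx
      exact (A.valuation_le_one_iff x).mp (x_integral_of_nsmul_eq_zero hint h hvm hR)
    · exact ⟨Point.some _ _ h', redTo_some ⟨x, hx⟩ ⟨y, hy⟩ h h'⟩
  · rintro ⟨S, ⟨rfl, -⟩ | ⟨a, b, h, h', rfl, -⟩⟩
    · exact Or.inl rfl
    · exact Or.inr ⟨a, b, h, rfl, Or.inr ⟨a.2, b.2, h'⟩⟩

/-- `E⁰` is stable under multiples (odd torsion prime to the residue characteristic). -/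
theorem inZero_nsmul {m : ℕ} (hm : Odd m) (hvm : A.valuation ((m : ℕ) : L) = 1)
    {VL : Affine L} (hVL : VL = (W.map (Int.castRingHom L)).toAffine) {R : VL.Point}
    (hR : m • R = 0) (h : InZero W A R) (n : ℕ) : InZero W A (n • R) := by
  have hnR : m • (n • R) = 0 := by rw [smul_comm, hR, smul_zero]
  rw [inZero_iff_exists_redTo W hvm hVL hnR]
  obtain ⟨S, hS⟩ := (inZero_iff_exists_redTo W hvm hVL hR).mp h
  exact ⟨n • S, redTo_nsmul W hm hvm hVL rfl hR hS n⟩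

/-- A nonzero odd-torsion point of `E⁰` has `ψ₂` a unit. -/
theorem val_psi2_eq_one {m : ℕ} (hm : Odd m) (hvm : A.valuation ((m : ℕ) : L) = 1)
    {VL : Affine L} (hVL : VL = (W.map (Int.castRingHom L)).toAffine) {R : VL.Point}
    (hR : m • R = 0) (hR0 : R ≠ 0) (h : InZero W A R) : A.valuation (psi2 R) = 1 := by
  obtain ⟨S, hS⟩ := (inZero_iff_exists_redTo W hvm hVL hR).mp h
  subst hVL
  rcases hS with ⟨rfl, -⟩ | ⟨a, b, hns, hns', rfl, -⟩
  · exact absurd rfl hR0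
  · rw [psi2_some]
    exact (val_two_y_eq_one W hm hns hns' hR).2

/-- A nonzero torsion point (of order prime to the residue characteristic) outside `E⁰` has `ψ₂` in
the maximal ideal. -/
theorem val_psi2_lt_one {m : ℕ} (hvm : A.valuation ((m : ℕ) : L) = 1)
    {VL : Affine L} (hVL : VL = (W.map (Int.castRingHom L)).toAffine) {R : VL.Point}
    (hR : m • R = 0) (hR0 : R ≠ 0) (h : ¬ InZero W A R) : A.valuation (psi2 R) < 1 := by
  subst hVL
  have hint : IntegralCoeffs A.valuation (W.map (Int.castRingHom L)).toAffine :=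
    integralCoeffs_map W
  rcases R with _ | ⟨x, y, hns⟩
  · exact absurd rfl hR0
  have hvx : A.valuation x ≤ 1 := x_integral_of_nsmul_eq_zero hint hns hvm hR
  have hvy : A.valuation y ≤ 1 := by
    by_contra hy
    exact absurd (vx_of_vy hint hns.1 (not_le.mp hy)) (not_lt.mpr hvx)
  have hxA : x ∈ A := (A.valuation_le_one_iff x).mp hvx
  have hyA : y ∈ A := (A.valuation_le_one_iff y).mp hvy
  have hEqk := equation_residue A W ⟨x, hxA⟩ ⟨y, hyA⟩ hns.1
  have hsing : ¬ (W.map (Int.castRingHom (IsLocalRing.ResidueField A))).toAffine.Nonsingular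
      (IsLocalRing.residue A ⟨x, hxA⟩) (IsLocalRing.residue A ⟨y, hyA⟩) := fun h' =>
    h (Or.inr ⟨x, y, hns, rfl, Or.inr ⟨hxA, hyA, h'⟩⟩)
  rw [nonsingular_iff] at hsing
  have h2 : IsLocalRing.residue A ⟨y, hyA⟩ =
      -IsLocalRing.residue A ⟨y, hyA⟩ -
        (W.map (Int.castRingHom (IsLocalRing.ResidueField A))).toAffine.a₁ *
          IsLocalRing.residue A ⟨x, hxA⟩ -
        (W.map (Int.castRingHom (IsLocalRing.ResidueField A))).toAffine.a₃ := by
    by_contra hne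
    exact hsing ⟨hEqk, Or.inr hne⟩
  -- the element of `A`
  set u : A := ⟨y, hyA⟩ + ⟨y, hyA⟩ + ((W.a₁ : ℤ) : A) * ⟨x, hxA⟩ + ((W.a₃ : ℤ) : A) with hu
  have hres : IsLocalRing.residue A u = IsLocalRing.residue A 0 := by
    rw [map_zero, hu, map_add, map_add, map_add, map_mul, map_intCast, map_intCast]
    simp only [WeierstrassCurve.map_a₁, WeierstrassCurve.map_a₃, eq_intCast] at h2
    linear_combination h2
  have hval := (res_eq_iff u 0).mp hres
  have hcoe : (u : L) - ((0 : A) : L) = psi2 (Point.some x y hns) := by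
    rw [psi2_some, hu]
    simp only [WeierstrassCurve.map_a₁, WeierstrassCurve.map_a₃, eq_intCast]
    push_cast
    ring
  rwa [hcoe] at hval

end General

/-! ### Points of odd prime order -/

section Prime

variable {L : Type*} [Field L] [DecidableEq L] (W : WeierstrassCurve ℤ) {A : ValuationSubring L}
  [DecidableEq (IsLocalRing.ResidueField A)]
  {p : ℕ} (hp : p.Prime) (hp2 : p ≠ 2) (hvp : A.valuation ((p : ℕ) : L) = 1)
  {VL : Affine L} (hVL : VL = (W.map (Int.castRingHom L)).toAffine) {Q : VL.Point}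
  (hQ : p • Q = 0) (hQ0 : Q ≠ 0)

include hp hQ hQ0 in
theorem addOrderOf_eq : addOrderOf Q = p := by
  have : Fact p.Prime := ⟨hp⟩
  exact addOrderOf_eq_prime hQ hQ0

include hp hQ hQ0 in
theorem nsmul_ne_zero_of_not_dvd {k : ℕ} (hk : ¬ p ∣ k) : k • Q ≠ 0 := by
  intro h0
  apply hk
  rw [← addOrderOf_eq hp hQ hQ0]
  exact addOrderOf_dvd_of_nsmul_eq_zero h0

include hp hQ hQ0 in
theorem exists_nsmul_nsmul_eq {k : ℕ} (hk : ¬ p ∣ k) : ∃ k' : ℕ, k' • (k • Q) = Q := by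
  have hcop : Nat.Coprime k p := (Nat.Coprime.symm ((Nat.Prime.coprime_iff_not_dvd hp).mpr hk))
  obtain ⟨m, -, hm⟩ := Nat.exists_mul_mod_eq_one_of_coprime hcop hp.one_lt
  refine ⟨m, ?_⟩
  rw [smul_smul, mul_comm, ← mod_addOrderOf_nsmul, addOrderOf_eq hp hQ hQ0, hm, one_nsmul]

include hp hp2 hvp hVL hQ hQ0 in
/-- `kQ ∈ E⁰ ⟺ Q ∈ E⁰` for `p ∤ k`. -/
theorem inZero_nsmul_iff {k : ℕ} (hk : ¬ p ∣ k) : InZero W A (k • Q) ↔ InZero W A Q := by
  have hodd : Odd p := hp.odd_of_ne_two hp2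
  constructor
  · intro h
    obtain ⟨k', hk'⟩ := exists_nsmul_nsmul_eq hp hQ hQ0 hk
    have hkQ : p • (k • Q) = 0 := by rw [smul_comm, hQ, smul_zero]
    have := inZero_nsmul W hodd hvp hVL hkQ h k'
    rwa [hk'] at this
  · intro h
    exact inZero_nsmul W hodd hvp hVL hQ h k

include hp hp2 hvp hVL hQ hQ0 in
theorem val_psi2_nsmul_eq_one (h : InZero W A Q) {k : ℕ} (hk : ¬ p ∣ k) :
    A.valuation (psi2 (k • Q)) = 1 := by
  have hodd : Odd p := hp.odd_of_ne_two hp2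
  have hkQ : p • (k • Q) = 0 := by rw [smul_comm, hQ, smul_zero]
  exact val_psi2_eq_one W hodd hvp hVL hkQ (nsmul_ne_zero_of_not_dvd hp hQ hQ0 hk)
    ((inZero_nsmul_iff W hp hp2 hvp hVL hQ hQ0 hk).mpr h)

include hp hp2 hvp hVL hQ hQ0 in
theorem val_psi2_nsmul_lt_one (h : ¬ InZero W A Q) {k : ℕ} (hk : ¬ p ∣ k) :
    A.valuation (psi2 (k • Q)) < 1 := by
  have hkQ : p • (k • Q) = 0 := by rw [smul_comm, hQ, smul_zero]
  exact val_psi2_lt_one W hvp hVL hkQ (nsmul_ne_zero_of_not_dvd hp hQ hQ0 hk)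
    (fun h' => h ((inZero_nsmul_iff W hp hp2 hvp hVL hQ hQ0 hk).mp h'))

/-- `∏_{k=1}^{p-1} ψ₂(kQ)`. -/
def psiProd (p : ℕ) {VL : Affine L} (Q : VL.Point) : L :=
  ∏ k ∈ Finset.Icc 1 (p - 1), psi2 (k • Q)

theorem not_dvd_of_mem_Icc {p k : ℕ} (hk : k ∈ Finset.Icc 1 (p - 1)) : ¬ p ∣ k := by
  rw [Finset.mem_Icc] at hk
  intro hd
  have := Nat.le_of_dvd (by omega) hd
  omega

include hp hp2 hvp hVL hQ hQ0 in
/-- **The local criterion**, product form. -/
theorem inZero_iff_val_psiProd : InZero W A Q ↔ A.valuation (psiProd p Q) = 1 := by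
  unfold psiProd
  rw [map_prod]
  constructor
  · intro h
    exact Finset.prod_eq_one fun k hk =>
      val_psi2_nsmul_eq_one W hp hp2 hvp hVL hQ hQ0 h (not_dvd_of_mem_Icc hk)
  · intro hprod
    by_contra h
    have h1 : (1 : ℕ) ∈ Finset.Icc 1 (p - 1) := by
      rw [Finset.mem_Icc]
      have := hp.two_le
      omega
    have hlt : ∏ k ∈ Finset.Icc 1 (p - 1), A.valuation (psi2 (k • Q)) < 1 := by
      rw [← Finset.mul_prod_erase _ _ h1]
      have ha : A.valuation (psi2 (1 • Q)) < 1 :=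
        val_psi2_nsmul_lt_one W hp hp2 hvp hVL hQ hQ0 h (not_dvd_of_mem_Icc h1)
      have hb : ∏ k ∈ (Finset.Icc 1 (p - 1)).erase 1, A.valuation (psi2 (k • Q)) ≤ 1 :=
        Finset.prod_le_one' fun k hk =>
          (val_psi2_nsmul_lt_one W hp hp2 hvp hVL hQ hQ0 h
            (not_dvd_of_mem_Icc (Finset.mem_of_mem_erase hk))).le
      calc A.valuation (psi2 (1 • Q)) *
            ∏ k ∈ (Finset.Icc 1 (p - 1)).erase 1, A.valuation (psi2 (k • Q))
          ≤ A.valuation (psi2 (1 • Q)) * 1 := mul_le_mul_right hb _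
        _ < 1 := by rwa [mul_one]
    exact absurd hprod hlt.ne

/-- `U(W, Q) = p¹² ∏_{k=1}^{p-1} ψ₂(kQ)⁴ / Δ^{p-1}`. -/
def UU (W : WeierstrassCurve ℤ) (p : ℕ) {VL : Affine L} (Q : VL.Point) : L :=
  ((p : ℕ) : L) ^ 12 * psiProd p Q ^ 4 / ((W.Δ : ℤ) : L) ^ (p - 1)

omit [DecidableEq (IsLocalRing.ResidueField A)] in
theorem val_UU_mul (hvp : A.valuation ((p : ℕ) : L) = 1) (hΔ : ((W.Δ : ℤ) : L) ≠ 0) :
    A.valuation (UU W p Q) * A.valuation ((W.Δ : ℤ) : L) ^ (p - 1) =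
      A.valuation (psiProd p Q) ^ 4 := by
  unfold UU
  rw [map_div₀, map_mul, map_pow, map_pow, map_pow, hvp, one_pow, one_mul]
  have hne : A.valuation ((W.Δ : ℤ) : L) ^ (p - 1) ≠ 0 :=
    pow_ne_zero _ ((map_ne_zero _).mpr hΔ)
  exact div_mul_cancel₀ _ hne

include hp hp2 hvp hVL hQ hQ0 in
/-- **The local criterion**, `U`-form. -/
theorem inZero_iff_val_UU (hΔ : ((W.Δ : ℤ) : L) ≠ 0) :
    InZero W A Q ↔
      A.valuation (UU W p Q) * A.valuation ((W.Δ : ℤ) : L) ^ (p - 1) = 1 := by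
  rw [val_UU_mul W hvp hΔ, inZero_iff_val_psiProd W hp hp2 hvp hVL hQ hQ0]
  exact (pow_eq_one_iff_of_nonneg zero_le (by norm_num : (4 : ℕ) ≠ 0)).symm

include hp hp2 hvp hVL hQ hQ0 in
/-- **The local criterion**, `v(U) = v(Δ)^{-(p-1)}`. -/
theorem inZero_iff_val_UU_eq_inv (hΔ : ((W.Δ : ℤ) : L) ≠ 0) :
    InZero W A Q ↔
      A.valuation (UU W p Q) = (A.valuation ((W.Δ : ℤ) : L) ^ (p - 1))⁻¹ := by
  rw [inZero_iff_val_UU W hp hp2 hvp hVL hQ hQ0 hΔ]
  have hne : A.valuation ((W.Δ : ℤ) : L) ^ (p - 1) ≠ 0 :=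
    pow_ne_zero _ ((map_ne_zero _).mpr hΔ)
  exact mul_eq_one_iff_eq_inv₀ hne

include hp hp2 hvp hVL hQ hQ0 in
/-- **The local criterion**, `v(U) = v(j)^{p-1}` for `j = c₄³/Δ` with `c₄` a unit at `A`. -/
theorem inZero_iff_val_UU_eq_j (hΔ : ((W.Δ : ℤ) : L) ≠ 0)
    (hc₄ : A.valuation ((W.c₄ : ℤ) : L) = 1) :
    InZero W A Q ↔
      A.valuation (UU W p Q) =
        A.valuation (((W.c₄ : ℤ) : L) ^ 3 / ((W.Δ : ℤ) : L)) ^ (p - 1) := by
  rw [inZero_iff_val_UU_eq_inv W hp hp2 hvp hVL hQ hQ0 hΔ, map_div₀, map_pow, hc₄, one_pow,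
    one_div, inv_pow]

end Prime

/-! ### The `ℚ̄`-forms -/

section Qbar

local notation "Qb" => AlgebraicClosure ℚ

variable (W : WeierstrassCurve ℤ) (A : ValuationSubring Qb)

/-- The Prelude's `InZeroComponentAt` is `InZero`. -/
theorem inZeroComponentAt_iff (Q : ((W.map (Int.castRingHom ℚ))⁄Qb).Point) :
    W.InZeroComponentAt A Q ↔ InZero W A Q := Iff.rfl

variable {A}
variable {p ℓ : ℕ} (hp : p.Prime) (hp2 : p ≠ 2) (hℓ : ℓ.Prime) (hℓp : ℓ ≠ p)
  (hA : A.LiesOverPrime ℓ) {Q : ((W.map (Int.castRingHom ℚ))⁄Qb).Point}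
  (hQord : addOrderOf Q = p)

include hp hℓ hℓp hA in
theorem valuation_p_eq_one : A.valuation ((p : ℕ) : Qb) = 1 :=
  valuation_natCast_eq_one hℓ hA (fun hd => hℓp ((Nat.prime_dvd_prime_iff_eq hℓ hp).mp hd))

include hp hQord in
theorem nsmul_eq_zero_of_addOrderOf : p • Q = 0 := by
  rw [← hQord]; exact addOrderOf_nsmul_eq_zero Q

include hp hQord in
theorem ne_zero_of_addOrderOf : Q ≠ 0 := by
  rintro rfl
  rw [addOrderOf_zero] at hQord
  exact hp.one_lt.ne hQord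

include hp hp2 hℓ hℓp hA hQord in
/-- **F-LOC**, product form: `Q ∈ E⁰` at `A` iff `∏_{k=1}^{p-1} ψ₂(kQ)` is a unit at `A`. -/
theorem inZeroComponentAt_iff_val_psiProd :
    W.InZeroComponentAt A Q ↔ A.valuation (psiProd p Q) = 1 := by
  classical
  exact inZero_iff_val_psiProd W hp hp2 (valuation_p_eq_one hp hℓ hℓp hA)
    (TorsionLift20.baseChange_eq_map W) (nsmul_eq_zero_of_addOrderOf W hp hQord)
    (ne_zero_of_addOrderOf W hp hQord)

include hp hp2 hℓ hℓp hA hQord in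
/-- **F-LOC**, `U`-form. -/
theorem inZeroComponentAt_iff_val_UU (hΔ : W.Δ ≠ 0) :
    W.InZeroComponentAt A Q ↔
      A.valuation (UU W p Q) = (A.valuation ((W.Δ : ℤ) : Qb) ^ (p - 1))⁻¹ := by
  classical
  exact inZero_iff_val_UU_eq_inv W hp hp2 (valuation_p_eq_one hp hℓ hℓp hA)
    (TorsionLift20.baseChange_eq_map W) (nsmul_eq_zero_of_addOrderOf W hp hQord)
    (ne_zero_of_addOrderOf W hp hQord) (Int.cast_ne_zero.mpr hΔ)

include hp hp2 hℓ hℓp hA hQord in
/-- **F-LOC**, `j`-form: for `ℓ ∤ c₄`, `Q ∈ E⁰` at `A` iff `v_A(U) = v_A(j_W)^{p-1}`. -/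
theorem inZeroComponentAt_iff_val_UU_eq_j (hΔ : W.Δ ≠ 0) (hℓc₄ : ¬ (ℓ : ℤ) ∣ W.c₄) :
    W.InZeroComponentAt A Q ↔
      A.valuation (UU W p Q) =
        A.valuation (((W.c₄ : ℤ) : Qb) ^ 3 / ((W.Δ : ℤ) : Qb)) ^ (p - 1) := by
  classical
  have hc₄ : A.valuation ((W.c₄ : ℤ) : Qb) = 1 := valuation_intCast_eq_one hℓ hA hℓc₄
  exact inZero_iff_val_UU_eq_j W hp hp2 (valuation_p_eq_one hp hℓ hℓp hA)
    (TorsionLift20.baseChange_eq_map W) (nsmul_eq_zero_of_addOrderOf W hp hQord)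
    (ne_zero_of_addOrderOf W hp hQord) (Int.cast_ne_zero.mpr hΔ) hc₄

end Qbar

end Fermat.Agent.MAZ.Loc44
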