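import Mathlib
import Fermat.Agent.MAZ.Loc44.Main
import Fermat.Prelude.Def_FLTPrelim_GaloisRep
import Fermat.Agent.Lib.FrobeniusExists

/-!
# MAZ (S15), brick F-LOC, complement: `U(W, Q)` is a nonzero rational number  (helper44)

`W` an integral Weierstrass curve, `Q ∈ W(ℚ̄)` fixed by `Gal(ℚ̄/ℚ)` (the hypothesis `hQfix` of S15).

* `psi2_smul` : `ψ₂(σ • R) = σ (ψ₂ R)`;
* `psi2_mem_range`, `psiProd_mem_range`, `UU_mem_range` : for a Galois-fixed `Q`, `ψ₂(kQ)`, `∏ ψ₂(kQ)` and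
  `U(W, Q)` lie in `ℚ`;
* `psi2_ne_zero` : `ψ₂ R ≠ 0` for `R` of odd order; `psiProd_ne_zero`, `UU_ne_zero` (for `addOrderOf Q = p`
  an odd prime and `Δ ≠ 0`);
* `exists_rat_UU` : `∃ u : ℚ, u ≠ 0 ∧ algebraMap ℚ ℚ̄ u = U(W, Q)`.
-/

set_option autoImplicit false
set_option linter.unusedSectionVars false

open WeierstrassCurve WeierstrassCurve.Affine

namespace Fermat.Agent.MAZ.Loc44

local notation "Qb" => AlgebraicClosure ℚ
local notation "GQ" => (AlgebraicClosure ℚ ≃ₐ[ℚ] AlgebraicClosure ℚ)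

variable (W : WeierstrassCurve ℤ)

/-- `ψ₂` is Galois-equivariant. -/
theorem psi2_smul (σ : GQ) (R : ((W.map (Int.castRingHom ℚ))⁄Qb).Point) :
    psi2 (σ • R) = σ (psi2 R) := by
  rcases R with _ | ⟨x, y, h⟩
  · show psi2 (0 : ((W.map (Int.castRingHom ℚ))⁄Qb).Point) = σ 1
    rw [psi2_zero, map_one]
  · have h2 : ((W.map (Int.castRingHom ℚ))⁄Qb).Nonsingular (σ.toAlgHom x) (σ.toAlgHom y) :=
      (WeierstrassCurve.Affine.baseChange_nonsingular (W.map (Int.castRingHom ℚ))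
        (f := σ.toAlgHom) σ.toAlgHom.injective x y).mpr h
    have hmap : σ • (Point.some x y h : ((W.map (Int.castRingHom ℚ))⁄Qb).Point)
        = Point.some (σ.toAlgHom x) (σ.toAlgHom y) h2 := rfl
    rw [hmap, psi2_some, psi2_some, map_add, map_add, map_mul, map_mul, map_ofNat]
    have ha₁ : σ ((W.map (Int.castRingHom ℚ))⁄Qb).a₁ = ((W.map (Int.castRingHom ℚ))⁄Qb).a₁ := by
      show σ ((W.map (Int.castRingHom ℚ)).map (algebraMap ℚ Qb)).a₁ = _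
      rw [WeierstrassCurve.map_a₁]
      exact σ.commutes _
    have ha₃ : σ ((W.map (Int.castRingHom ℚ))⁄Qb).a₃ = ((W.map (Int.castRingHom ℚ))⁄Qb).a₃ := by
      show σ ((W.map (Int.castRingHom ℚ)).map (algebraMap ℚ Qb)).a₃ = _
      rw [WeierstrassCurve.map_a₃]
      exact σ.commutes _
    rw [ha₁, ha₃]
    rfl

/-- Multiples of a Galois-fixed point are Galois-fixed. -/
theorem smul_nsmul_of_fix {Q : ((W.map (Int.castRingHom ℚ))⁄Qb).Point}
    (hQfix : ∀ σ : GQ, σ • Q = Q) (σ : GQ) (k : ℕ) : σ • (k • Q) = k • Q := by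
  have h : σ • (k • Q) = k • (σ • Q) :=
    map_nsmul (Point.map (W' := W.map (Int.castRingHom ℚ)) σ.toAlgHom) k Q
  rw [h, hQfix σ]

/-- `ψ₂` of a Galois-fixed point is rational. -/
theorem psi2_mem_range {R : ((W.map (Int.castRingHom ℚ))⁄Qb).Point}
    (hfix : ∀ σ : GQ, σ • R = R) : psi2 R ∈ (algebraMap ℚ Qb).fieldRange := by
  rw [RingHom.mem_fieldRange]
  have hgal : IsGalois ℚ Qb := Fermat.Agent.Lib.FrobeniusExists.isGalois_Qbar
  have := (InfiniteGalois.mem_range_algebraMap_iff_fixed (k := ℚ) (K := Qb) (psi2 R)).mpr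
    (fun σ => by rw [← psi2_smul, hfix σ])
  exact this

theorem psiProd_mem_range (p : ℕ) {Q : ((W.map (Int.castRingHom ℚ))⁄Qb).Point}
    (hQfix : ∀ σ : GQ, σ • Q = Q) : psiProd p Q ∈ (algebraMap ℚ Qb).fieldRange :=
  Subfield.prod_mem _ fun k _ =>
    psi2_mem_range W (fun σ => smul_nsmul_of_fix W hQfix σ k)

/-- **`U(W, Q)` is rational** for a Galois-fixed point `Q`. -/
theorem UU_mem_range (p : ℕ) {Q : ((W.map (Int.castRingHom ℚ))⁄Qb).Point}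
    (hQfix : ∀ σ : GQ, σ • Q = Q) : UU W p Q ∈ (algebraMap ℚ Qb).fieldRange := by
  unfold UU
  refine Subfield.div_mem _ (Subfield.mul_mem _ (Subfield.pow_mem _ (natCast_mem _ p) 12)
    (Subfield.pow_mem _ (psiProd_mem_range W p hQfix) 4))
    (Subfield.pow_mem _ (intCast_mem _ W.Δ) (p - 1))

/-- `ψ₂ R ≠ 0` for a point of odd order. -/
theorem psi2_ne_zero {R : ((W.map (Int.castRingHom ℚ))⁄Qb).Point} {m : ℕ} (hm : Odd m)
    (hR : m • R = 0) : psi2 R ≠ 0 := by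
  rcases R with _ | ⟨x, y, h⟩
  · show psi2 (0 : ((W.map (Int.castRingHom ℚ))⁄Qb).Point) ≠ 0
    rw [psi2_zero]; exact one_ne_zero
  · rw [psi2_some]
    exact Fermat.Agent.InertiaMult.two_y_ne_zero_of_odd_nsmul h hm hR

theorem psiProd_ne_zero {p : ℕ} (hp : p.Prime) (hp2 : p ≠ 2)
    {Q : ((W.map (Int.castRingHom ℚ))⁄Qb).Point} (hQord : addOrderOf Q = p) :
    psiProd p Q ≠ 0 := by
  unfold psiProd
  rw [Finset.prod_ne_zero_iff]
  intro k _
  refine psi2_ne_zero W (hp.odd_of_ne_two hp2) ?_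
  rw [smul_comm, nsmul_eq_zero_of_addOrderOf W hp hQord, nsmul_zero]

theorem UU_ne_zero {p : ℕ} (hp : p.Prime) (hp2 : p ≠ 2)
    {Q : ((W.map (Int.castRingHom ℚ))⁄Qb).Point} (hQord : addOrderOf Q = p) (hΔ : W.Δ ≠ 0) :
    UU W p Q ≠ 0 := by
  unfold UU
  refine div_ne_zero (mul_ne_zero (pow_ne_zero _ (Nat.cast_ne_zero.mpr hp.ne_zero))
    (pow_ne_zero _ (psiProd_ne_zero W hp hp2 hQord))) (pow_ne_zero _ (Int.cast_ne_zero.mpr hΔ))

/-- **`U(W, Q) ∈ ℚˣ`** for a Galois-fixed point of odd prime order. -/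
theorem exists_rat_UU {p : ℕ} (hp : p.Prime) (hp2 : p ≠ 2)
    {Q : ((W.map (Int.castRingHom ℚ))⁄Qb).Point} (hQfix : ∀ σ : GQ, σ • Q = Q)
    (hQord : addOrderOf Q = p) (hΔ : W.Δ ≠ 0) :
    ∃ u : ℚ, u ≠ 0 ∧ algebraMap ℚ Qb u = UU W p Q := by
  obtain ⟨u, hu⟩ := RingHom.mem_fieldRange.mp (UU_mem_range W p hQfix)
  refine ⟨u, ?_, hu⟩
  rintro rfl
  rw [map_zero] at hu
  exact UU_ne_zero W hp hp2 hQord hΔ hu.symm

end Fermat.Agent.MAZ.Loc44
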