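import Mathlib
import Fermat.Agent.MAZ.Loc44.Rational
import Fermat.Agent.MAZ.EF86.ModInv

/-!
# MAZ (S15), brick F-LOC (row 709): the final shape in the shared vocabulary `ModInv`  (helper44)

Link (6) of helper86's E3 chain (report 1165).  `V = W.map (Int.castRingHom ℚ)`, `E = V.baseChange ℚ̄`,
`a = V.c₄³/V.Δ = j_W ∈ ℚ`, `Q ∈ E(ℚ̄)` of odd prime order `p`, `A'` a place of `ℚ̄` over `ℓ' ≠ p`:

* `uinv_eq_UU` : `ModInv.Uinv E Q p = Loc44.UU W p Q`;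
* `loc` : `(Q ∈ E⁰ → v(Uinv) = v(a)^(p-1)) ∧ (Q ∉ E⁰ → v(Uinv) ≠ v(a)^(p-1))` for `ℓ' ∤ c₄`
  (the EXACT shape wanted by E3-ASM), `loc_iff` the same as an equivalence;
* `exists_rat_uinv` : `Uinv E Q p ∈ ℚˣ` for a Galois-fixed `Q`.
-/

set_option autoImplicit false
set_option linter.unusedSectionVars false

open WeierstrassCurve WeierstrassCurve.Affine

namespace Fermat.Agent.MAZ.Loc44

local notation "Qb" => AlgebraicClosure ℚ
local notation "GQ" => (AlgebraicClosure ℚ ≃ₐ[ℚ] AlgebraicClosure ℚ)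

variable (W : WeierstrassCurve ℤ)

theorem baseChange_Δ :
    ((W.map (Int.castRingHom ℚ)).baseChange Qb).Δ = ((W.Δ : ℤ) : Qb) := by
  show ((W.map (Int.castRingHom ℚ)).map (algebraMap ℚ Qb)).Δ = _
  rw [WeierstrassCurve.map_Δ, WeierstrassCurve.map_Δ, eq_intCast, map_intCast]

theorem algebraMap_j :
    algebraMap ℚ Qb ((W.map (Int.castRingHom ℚ)).c₄ ^ 3 / (W.map (Int.castRingHom ℚ)).Δ) =
      ((W.c₄ : ℤ) : Qb) ^ 3 / ((W.Δ : ℤ) : Qb) := by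
  rw [WeierstrassCurve.map_c₄, WeierstrassCurve.map_Δ, eq_intCast, eq_intCast, map_div₀, map_pow,
    map_intCast, map_intCast]

/-- The two `ψ₂` agree off the origin. -/
theorem modInv_psi2_eq {R : ((W.map (Int.castRingHom ℚ))⁄Qb).Point} (hR : R ≠ 0) :
    ModInv.psi2 ((W.map (Int.castRingHom ℚ)).baseChange Qb) R = psi2 R := by
  rcases R with _ | ⟨x, y, h⟩
  · exact absurd rfl hR
  · rfl

theorem Ico_eq_Icc {p : ℕ} (hp : 1 ≤ p) : Finset.Ico 1 p = Finset.Icc 1 (p - 1) := by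
  ext k
  rw [Finset.mem_Ico, Finset.mem_Icc]
  omega

variable {p : ℕ} (hp : p.Prime) {Q : ((W.map (Int.castRingHom ℚ))⁄Qb).Point}
  (hQord : addOrderOf Q = p)

include hp hQord in
theorem modInv_psiProd_eq :
    ModInv.psiProd ((W.map (Int.castRingHom ℚ)).baseChange Qb) Q p = psiProd p Q ^ 4 := by
  unfold ModInv.psiProd psiProd
  rw [Ico_eq_Icc hp.one_lt.le, ← Finset.prod_pow]
  refine Finset.prod_congr rfl fun k hk => ?_
  rw [modInv_psi2_eq W (nsmul_ne_zero_of_not_dvd hp (nsmul_eq_zero_of_addOrderOf W hp hQord)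
    (ne_zero_of_addOrderOf W hp hQord) (not_dvd_of_mem_Icc hk))]

include hp hQord in
/-- `ModInv.Uinv E Q p` is `Loc44.UU W p Q`. -/
theorem uinv_eq_UU :
    ModInv.Uinv ((W.map (Int.castRingHom ℚ)).baseChange Qb) Q p = UU W p Q := by
  unfold ModInv.Uinv UU
  rw [modInv_psiProd_eq W hp hQord, baseChange_Δ]

variable (hp2 : p ≠ 2) {ℓ' : ℕ} (hℓ' : ℓ'.Prime) (hℓp : ℓ' ≠ p) (hΔ : W.Δ ≠ 0)
  (hℓc₄ : ¬ (ℓ' : ℤ) ∣ W.c₄) {A' : ValuationSubring Qb} (hA' : A'.LiesOverPrime ℓ')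

include hp hp2 hQord hℓ' hℓp hΔ hℓc₄ hA' in
/-- **LOC**, as an equivalence. -/
theorem loc_iff :
    W.InZeroComponentAt A' Q ↔
      A'.valuation (ModInv.Uinv ((W.map (Int.castRingHom ℚ)).baseChange Qb) Q p) =
        A'.valuation (algebraMap ℚ Qb
          ((W.map (Int.castRingHom ℚ)).c₄ ^ 3 / (W.map (Int.castRingHom ℚ)).Δ)) ^ (p - 1) := by
  rw [uinv_eq_UU W hp hQord, algebraMap_j]
  exact inZeroComponentAt_iff_val_UU_eq_j W hp hp2 hℓ' hℓp hA' hQord hΔ hℓc₄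

include hp hp2 hQord hℓ' hℓp hΔ hℓc₄ hA' in
/-- **LOC**, link (6) of the E3 chain, in the exact shape of report 1165. -/
theorem loc :
    (W.InZeroComponentAt A' Q →
      A'.valuation (ModInv.Uinv ((W.map (Int.castRingHom ℚ)).baseChange Qb) Q p) =
        A'.valuation (algebraMap ℚ Qb
          ((W.map (Int.castRingHom ℚ)).c₄ ^ 3 / (W.map (Int.castRingHom ℚ)).Δ)) ^ (p - 1)) ∧
    (¬ W.InZeroComponentAt A' Q →
      A'.valuation (ModInv.Uinv ((W.map (Int.castRingHom ℚ)).baseChange Qb) Q p) ≠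
        A'.valuation (algebraMap ℚ Qb
          ((W.map (Int.castRingHom ℚ)).c₄ ^ 3 / (W.map (Int.castRingHom ℚ)).Δ)) ^ (p - 1)) :=
  ⟨fun h => (loc_iff W hp hQord hp2 hℓ' hℓp hΔ hℓc₄ hA').mp h,
    fun h h' => h ((loc_iff W hp hQord hp2 hℓ' hℓp hΔ hℓc₄ hA').mpr h')⟩

/-- Alias of `loc_iff` with the argument order of `inZeroComponentAt_iff_val_UU_eq_j`
(the adapter requested by the E3 architect). -/
theorem inZeroComponentAt_iff_val_Uinv {p ℓ : ℕ} (hp : p.Prime) (hp2 : p ≠ 2) (hℓ : ℓ.Prime)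
    (hℓp : ℓ ≠ p) {A : ValuationSubring Qb} (hA : A.LiesOverPrime ℓ)
    {Q : ((W.map (Int.castRingHom ℚ))⁄Qb).Point} (hQord : addOrderOf Q = p) (hΔ : W.Δ ≠ 0)
    (hℓc₄ : ¬ (ℓ : ℤ) ∣ W.c₄) :
    W.InZeroComponentAt A Q ↔
      A.valuation (ModInv.Uinv ((W.map (Int.castRingHom ℚ)).baseChange Qb) Q p) =
        A.valuation (algebraMap ℚ Qb
          ((W.map (Int.castRingHom ℚ)).c₄ ^ 3 / (W.map (Int.castRingHom ℚ)).Δ)) ^ (p - 1) :=
  loc_iff W hp hQord hp2 hℓ hℓp hΔ hℓc₄ hA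

include hp hQord in
/-- `Uinv E Q p ∈ ℚˣ` for a Galois-fixed point of odd prime order. -/
theorem exists_rat_uinv (hp2 : p ≠ 2) (hQfix : ∀ σ : GQ, σ • Q = Q) (hΔ : W.Δ ≠ 0) :
    ∃ u : ℚ, u ≠ 0 ∧
      algebraMap ℚ Qb u = ModInv.Uinv ((W.map (Int.castRingHom ℚ)).baseChange Qb) Q p := by
  rw [uinv_eq_UU W hp hQord]
  exact exists_rat_UU W hp hp2 hQfix hQord hΔ

end Fermat.Agent.MAZ.Loc44
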